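import Fermat.Agent.S36.H878.RegMid4
import Fermat.Agent.S36.Mod3.H890.RegTwo
import Fermat.Agent.S36.Mod3.H276.RegI

/-!
# S36 / MOD3, leaf REG for `q` odd, and `Mod3.LeafReg` (helper878)

Leaf-level wiring of route R4 with the Hauptmodul `t₄` (`q` odd, `4 ∣ M` from `NeatFor`), mirror
of helper890's `Mod3/H890/RegTwo.lean` (`q = 2`, `9 ∣ M`).

* `LeafRegF4`     : `4 ∣ M → ∀ 𝔪 maximal, Through 𝔪 V₂ → PrincipalAt (chart R {x3E}) 𝔪 V₂`
                    (the middle disjunct of `PartReg.regular_f` at EVERY closed point of the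
                    middle component, triple points included);
* `leafRegF4_of`  : `LeafSheet → LeafVal → LeafQep → H356.LeafRegU → H890.LeafResJ → LeafRegF4`;
* `leafRegOdd_of` : `… → H276.LeafRegI → H890.LeafRegOdd`;
* `leafReg_of`    : `LeafSheet → LeafVal → LeafQep → LeafInc → H356.LeafRegU → H890.LeafResJ →
                    H276.LeafRegI → Mod3.LeafReg`   (`by_cases q = 2`).

So `Mod3.LeafReg` is reduced to (R-RES) `H890.LeafResJ` (the residue of `π ^ (12 (q - 1)) / U_m`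
on the middle component, `π = j_{q²} - j`) and to `regular_i` (`H276.LeafRegI`, the cusps).
-/

set_option autoImplicit false
set_option linter.style.haveILetI false
set_option linter.unusedSectionVars false
set_option synthInstance.maxHeartbeats 400000
set_option maxHeartbeats 1600000

noncomputable section

namespace Fermat.Agent.S36.Mod3.H878

open ModularCurve
open Fermat.Agent.S18.H138 (chart)
open Fermat.Agent.S36.Eng Fermat.Agent.S36.Mod3

/-- **REG, finite chart, `4 ∣ M`** (leaf-shaped). -/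
def LeafRegF4 : Prop :=
  Leaf fun P E M q _ _ _ _ _ _ _ V₂ _ =>
    4 ∣ M → ∀ 𝔪 : Ideal (chart (A2.RE P E) ({x3E E M q} : Set (A2.Mod.FE E (M * q * q)))),
      𝔪.IsMaximal → Through _ 𝔪 V₂ → PrincipalAt _ 𝔪 V₂

/-- **REG, finite chart, `4 ∣ M`**: from the leaves on main, (R-U) and (R-RES). -/
theorem leafRegF4_of (hSheet : LeafSheet) (hVal : LeafVal) (hQep : LeafQep)
    (hRU : H356.LeafRegU) (hRes : H890.LeafResJ) : LeafRegF4 := by
  intro P E M q _ _ _ w hStd V₁' V₂' V₁ V₂ V₃ W' W hO h4 𝔪 h𝔪 hthr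
  have hS := hSheet P E M q w hStd V₁' V₂' V₁ V₂ V₃ W' W hO
  have hV := hVal P E M q w hStd V₁' V₂' V₁ V₂ V₃ W' W hO
  have hQ := (hQep P E M q w hStd V₁' V₂' V₁ V₂ V₃ W' W hO).qep_f
  have hU := hRU P E M q w hStd V₁' V₂' V₁ V₂ V₃ W' W hO
  have hR := hRes P E M q w hStd V₁' V₂' V₁ V₂ V₃ W' W hO
  obtain ⟨t, ht, -⟩ := hV.ram₂
  have hB₁ : ∀ b : chart (A2.RE P E) ({x3E E M q} : Set (A2.Mod.FE E (M * q * q))),
      (b : A2.Mod.FE E (M * q * q)) ∈ V₁ := fun b =>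
    Mod3.H839.mem_valuationSubring_of_mem_chart839 V₁ hS.base₁
      (fun s hs => by rw [Set.mem_singleton_iff.1 hs]; exact hV.x_unit₁.2.1) b.2
  have hB₂ : ∀ b : chart (A2.RE P E) ({x3E E M q} : Set (A2.Mod.FE E (M * q * q))),
      (b : A2.Mod.FE E (M * q * q)) ∈ V₂ := fun b =>
    Mod3.H839.mem_valuationSubring_of_mem_chart839 V₂ hS.base₂
      (fun s hs => by rw [Set.mem_singleton_iff.1 hs]; exact hV.x_unit₂.2.1) b.2
  have hB₃ : ∀ b : chart (A2.RE P E) ({x3E E M q} : Set (A2.Mod.FE E (M * q * q))),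
      (b : A2.Mod.FE E (M * q * q)) ∈ V₃ := fun b =>
    Mod3.H839.mem_valuationSubring_of_mem_chart839 V₃ hS.base₃
      (fun s hs => by rw [Set.mem_singleton_iff.1 hs]; exact hV.x_unit₃.2.1) b.2
  exact Fermat.Agent.S36.H878.principalAt_mid_t4_conc hStd hO h4 hB₁ hB₂ hB₃ hQ ⟨t, ht⟩
    (H356.Um E M q) 12 hU.exists_pair hU.unit₁ hU.unit₃ hU.val₂' (dvd_mul_left q M) hR
    𝔪 h𝔪 hthr

/-- **REG for `q` odd**: from the leaves on main, (R-U), (R-RES) and `regular_i`. -/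
theorem leafRegOdd_of (hSheet : LeafSheet) (hVal : LeafVal) (hQep : LeafQep)
    (hRU : H356.LeafRegU) (hRes : H890.LeafResJ) (hI : H276.LeafRegI) : H890.LeafRegOdd := by
  intro P E M q _ _ _ w hStd V₁' V₂' V₁ V₂ V₃ W' W hO hq2
  refine ⟨fun 𝔪 h𝔪 hthr => Or.inr (Or.inl ?_), fun 𝔪 h𝔪 hx hthr => ?_⟩
  · exact leafRegF4_of hSheet hVal hQep hRU hRes P E M q w hStd V₁' V₂' V₁ V₂ V₃ W' W hO
      (hStd.neat.2.1 hq2) 𝔪 h𝔪 hthr
  · exact hI P E M q w hStd V₁' V₂' V₁ V₂ V₃ W' W hO 𝔪 h𝔪 hx hthr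

/-- **`Mod3.LeafReg`** from the leaves on main, (R-U), (R-RES) and `regular_i` (needed for `q`
odd only). -/
theorem leafReg_of (hSheet : LeafSheet) (hVal : LeafVal) (hQep : LeafQep) (hInc : LeafInc)
    (hRU : H356.LeafRegU) (hRes : H890.LeafResJ) (hI : H276.LeafRegI) : LeafReg :=
  H890.leafReg_of_two_odd (H890.leafReg2_of hSheet hVal hQep hInc hRU hRes)
    (leafRegOdd_of hSheet hVal hQep hRU hRes hI)

end Fermat.Agent.S36.Mod3.H878
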